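/-
GATE-C / C3 (LOCAL) — NORM LIMITATION, part 1 (helper67): the classes `ε_φ · β` and
**corestriction = norm** on them.

`Q` a finite cyclic group with generator `φ` of order `n`, `π : Γ →* Q`, `B : Rep k Γ`,
`β ∈ B^Γ`.  `cls π hφ B β` is the image of the universal class `[stdCocycle 1] ∈ H²(Q, k)` under
`(π, c ↦ c • β)`; on cocycles it is `(g, g') ↦ ⌊(lg π g + lg π g')/n⌋ • β`.

* `cls_map`   : functoriality in `(Γ, B)` (pure functoriality of `groupCohomology.map`);
* `cor_cls`   : for `V ≤ G` of finite index and `b ∈ A^V`: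
                `cor_V (cls (π ∘ incl) (Res_V A) b) = cls π A (N_{G/V} b)`,
                `N_{G/V} b = ∑_{c ∈ G/V} c.out • b`  (projection formula `cor(res ε ∪ b) = ε ∪ N b`,
                proved WITHOUT any cocycle formula for `cor`: `cor = trace_* ∘ Shapiro⁻¹`
                (helper52) applied to the class of the constant function `b` in `Coind`).
-/
import Mathlib
import Fermat.Agent.GC.Tate.CorRes
import Fermat.Agent.GC.Local.CycH2

set_option autoImplicit false

open CategoryTheory groupCohomology Rep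
open Fermat.Agent.GC.Tate Fermat.Agent.GC.Local.CycH2

noncomputable section

namespace Fermat.Agent.GC.Local.NormLim

universe u

variable {k : Type u} [CommRing k]

section Cls

variable {Γ Γ' Q : Type u} [Group Γ] [Group Γ'] [Group Q]

/-- `c ↦ c • β` as a morphism `Res_π (trivial k) ⟶ B`, for an invariant element `β`. -/
def invHom (π : Γ →* Q) (B : Rep.{u} k Γ) (β : B) (hβ : ∀ g, B.ρ g β = β) :
    res π (Rep.trivial k Q k) ⟶ B :=
  Rep.ofHom ⟨LinearMap.toSpanSingleton k B β, fun g => by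
    ext
    simp [hβ g]⟩

@[simp] lemma invHom_hom_apply (π : Γ →* Q) (B : Rep.{u} k Γ) (β : B) (hβ : ∀ g, B.ρ g β = β)
    (c : k) : (invHom π B β hβ).hom c = c • β := rfl

/-- `1` as an invariant of the trivial representation. -/
def univInv : (Rep.trivial k Q k).ρ.invariants := ⟨(1 : k), fun _ => rfl⟩

variable {φ : Q} {n : ℕ}

/-- the universal class `[stdCocycle 1] ∈ H²(Q, k)`. -/
def univClass (hφ : IsGen φ n) : H2 (Rep.trivial k Q k) :=
  H2π _ (stdCocycles₂ hφ univInv)

/-- the class `π^*(ε_φ) · β ∈ H²(Γ, B)`. -/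
def cls (π : Γ →* Q) (hφ : IsGen φ n) (B : Rep.{u} k Γ) (β : B) (hβ : ∀ g, B.ρ g β = β) : H2 B :=
  map π (invHom π B β hβ) 2 (univClass hφ)

lemma cls_congr (π : Γ →* Q) (hφ : IsGen φ n) (B : Rep.{u} k Γ) {β β' : B} (h : β = β')
    (hβ : ∀ g, B.ρ g β = β) (hβ' : ∀ g, B.ρ g β' = β') :
    cls π hφ B β hβ = cls π hφ B β' hβ' := by
  subst h; rfl

/-- the explicit cocycle of `cls`. -/
def clsCocycle (π : Γ →* Q) (hφ : IsGen φ n) (B : Rep.{u} k Γ) (β : B)
    (hβ : ∀ g, B.ρ g β = β) : cocycles₂ B :=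
  mapCocycles₂ π (invHom π B β hβ) (stdCocycles₂ hφ univInv)

lemma cls_eq_H2π (π : Γ →* Q) (hφ : IsGen φ n) (B : Rep.{u} k Γ) (β : B)
    (hβ : ∀ g, B.ρ g β = β) : cls π hφ B β hβ = H2π B (clsCocycle π hφ B β hβ) := by
  unfold cls univClass clsCocycle
  rw [H2π_comp_map_apply]

lemma clsCocycle_apply (π : Γ →* Q) (hφ : IsGen φ n) (B : Rep.{u} k Γ) (β : B)
    (hβ : ∀ g, B.ρ g β = β) (g g' : Γ) :
    (clsCocycle π hφ B β hβ).1 (g, g') = ((hφ.lg (π g) + hφ.lg (π g')) / n) • β := by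
  change (invHom π B β hβ).hom (((hφ.lg (π g) + hφ.lg (π g')) / n) • (1 : k)) = _
  rw [invHom_hom_apply, nsmul_eq_mul, mul_one, Nat.cast_smul_eq_nsmul]

/-- **Functoriality**: `(ψ, f)_* cls π B β = cls (π ∘ ψ) B' (f β)`. -/
theorem cls_map (π : Γ →* Q) (hφ : IsGen φ n) (B : Rep.{u} k Γ) (β : B)
    (hβ : ∀ g, B.ρ g β = β) (ψ : Γ' →* Γ) (B' : Rep.{u} k Γ') (f : res ψ B ⟶ B')
    (hβ' : ∀ g, B'.ρ g (f.hom β) = f.hom β) :
    map ψ f 2 (cls π hφ B β hβ) = cls (π.comp ψ) hφ B' (f.hom β) hβ' := by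
  unfold cls
  have h1 := map_comp (A := Rep.trivial k Q k) (B := B) (C := B') π ψ (invHom π B β hβ) f 2
  have h2 : map (π.comp ψ) ((resFunctor ψ).map (invHom π B β hβ) ≫ f) 2 =
      map (π.comp ψ) (invHom (π.comp ψ) B' (f.hom β) hβ') 2 := by
    refine map_congr rfl ?_ 2
    ext
    change f.hom ((1 : k) • β) = (1 : k) • f.hom β
    rw [one_smul, one_smul]
  rw [← h2, h1]
  rfl

end Cls

section Cor

variable {G Q : Type u} [Group G] [Group Q] {φ : Q} {n : ℕ}

/-- the constant function `b` in `Coind_V^G Res_V A`, for `b ∈ A^V`. -/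
def constCoind (V : Subgroup G) (A : Rep.{u} k G) (b : A) (hb : ∀ v : V, A.ρ (v : G) b = b) :
    coind V.subtype (res V.subtype A) :=
  ⟨fun _ => b, fun s _ => (hb s).symm⟩

lemma constCoind_inv (V : Subgroup G) (A : Rep.{u} k G) (b : A)
    (hb : ∀ v : V, A.ρ (v : G) b = b) (g : G) :
    (coind V.subtype (res V.subtype A)).ρ g (constCoind V A b hb) = constCoind V A b hb :=
  Subtype.ext (funext fun _ => rfl)

attribute [local instance] Subgroup.fintypeQuotientOfFiniteIndex

/-- the coset norm `N_{G/V} b = ∑_{c ∈ G/V} c.out • b`. -/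
def cosetNorm (V : Subgroup G) [V.FiniteIndex] (A : Rep.{u} k G) (b : A) : A :=
  ∑ c : G ⧸ V, A.ρ c.out b

lemma coindTrace_constCoind (V : Subgroup G) [V.FiniteIndex] (A : Rep.{u} k G) (b : A)
    (hb : ∀ v : V, A.ρ (v : G) b = b) :
    (coindTrace V A).hom (constCoind V A b hb) = cosetNorm V A b := by
  rw [coindTrace_hom_apply]
  rfl

lemma cosetNorm_inv (V : Subgroup G) [V.FiniteIndex] (A : Rep.{u} k G) (b : A)
    (hb : ∀ v : V, A.ρ (v : G) b = b) (g : G) : A.ρ g (cosetNorm V A b) = cosetNorm V A b := by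
  rw [← coindTrace_constCoind V A b hb, ← Rep.hom_comm_apply, constCoind_inv]

/-- **Corestriction = norm** on the classes `cls`. -/
theorem cor_cls (π : G →* Q) (hφ : IsGen φ n) (V : Subgroup G) [V.FiniteIndex]
    (A : Rep.{u} k G) (b : A) (hb : ∀ v : V, A.ρ (v : G) b = b) :
    cor V A 2 (cls (π.comp V.subtype) hφ (res V.subtype A) b hb) =
      cls π hφ A (cosetNorm V A b) (cosetNorm_inv V A b hb) := by
  set C := coind V.subtype (res V.subtype A)
  set ξ := cls π hφ C (constCoind V A b hb) (constCoind_inv V A b hb) with hξ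
  -- Shapiro of ξ
  have h1 : shapiro V (res V.subtype A) 2 ξ =
      cls (π.comp V.subtype) hφ (res V.subtype A) b hb := by
    unfold shapiro
    rw [hξ, cls_map π hφ C _ _ V.subtype (res V.subtype A) (coindEv V (res V.subtype A))
      (by intro g; exact hb g)]
    rfl
  -- trace of ξ
  have h2 : corCoind V A 2 ξ = cls π hφ A (cosetNorm V A b) (cosetNorm_inv V A b hb) := by
    unfold corCoind
    rw [hξ, cls_map π hφ C _ _ (MonoidHom.id G) A (coindTrace V A)
      (by
        intro g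
        rw [coindTrace_constCoind]
        exact cosetNorm_inv V A b hb g)]
    exact cls_congr _ hφ A (coindTrace_constCoind V A b hb) _ _
  rw [← h1, ← h2]
  unfold cor
  have h3 : (shapiroIso V (res V.subtype A) 2).inv (shapiro V (res V.subtype A) 2 ξ) = ξ := by
    rw [← shapiroIso_hom]
    exact Iso.hom_inv_id_apply (shapiroIso V (res V.subtype A) 2) ξ
  rw [ModuleCat.comp_apply, h3]

end Cor

end Fermat.Agent.GC.Local.NormLim
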