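/-
GATE-C / C3 (LOCAL) — NORM LIMITATION, part 2 (helper67): vanishing criterion for the classes
`cls π hφ B β` of `CupClass.lean`.

* `cls_mk_eq_infl_uClass` : for `π = mk' N` the class is the inflation of helper3's standard
  ("unramified") class `uClass` of `H²(G ⧸ N, A^N)`.
* `cls_mk_eq_zero_of_norm` / `cls_mk_eq_zero_iff` : it vanishes iff `a` is a `G ⧸ N`-norm from
  `A^N` (⇒ needs `H¹(N, A) = 0` for injectivity of inflation, helper1's InfRes2).
* general `π : Γ →* Q` (not surjective): `Γ ⧸ ker π` is cyclic, generated by `τ̄` with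
  `π τ = φ ^ d₀` (`d₀` minimal), of order `n / d₀`, and `cls π hφ = cls (mk' (ker π)) hτ̄`
  (`genQuot`, `cls_eq_cls_ker`); hence
  `exists_norm_of_cls_eq_zero` : `cls π hφ B b = 0 → b ∈ N_{Γ/ker π}(B^{ker π})`.
-/
import Mathlib
import Fermat.Agent.GC.Local.NormLim.CupClass
import Fermat.Agent.GC.Local.InvLower
import Fermat.Agent.GC.Global.DevissageFinal

set_option autoImplicit false

open CategoryTheory groupCohomology Rep
open Fermat.Agent.GC.Tate Fermat.Agent.GC.Local.CycH2 Fermat.Agent.GC.Local.InvLower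
open Fermat.Agent.GC.Global.Devissage

noncomputable section

namespace Fermat.Agent.GC.Local.NormLim

universe u

variable {k : Type u} [CommRing k]

section Mk

variable {G : Type u} [Group G] (A : Rep.{u} k G) (N : Subgroup G) [N.Normal]
  {φ : G ⧸ N} {n : ℕ} (hφ : IsGen φ n) (a : A) (ha : ∀ g, A.ρ g a = a)

/-- for `π = mk' N`, `cls` is the inflation of helper3's standard class. -/
theorem cls_mk_eq_infl_uClass :
    cls (QuotientGroup.mk' N) hφ A a ha = infl A N 2 (uClass A N hφ a ha) := by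
  rw [cls_eq_H2π]
  unfold uClass
  rw [H2π_comp_map_apply]
  congr 1
  apply Subtype.ext
  funext p
  obtain ⟨g, g'⟩ := p
  rw [clsCocycle_apply]
  rfl

/-- `a` a norm from `A^N` ⟹ the class vanishes. -/
theorem cls_mk_eq_zero_of_norm
    (h : ∃ z : (A.quotientToInvariants N).V,
      ((gammaInv A N a ha : (A.quotientToInvariants N).ρ.invariants) :
        (A.quotientToInvariants N).V) = nrmLin (A.quotientToInvariants N) φ n z) :
    cls (QuotientGroup.mk' N) hφ A a ha = 0 := by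
  rw [cls_mk_eq_infl_uClass]
  have : uClass A N hφ a ha = 0 := by
    unfold uClass
    exact (H2π_stdCocycles₂_eq_zero_iff' hφ _).2 h
  rw [this, map_zero]

/-- the class vanishes iff `a` is a norm from `A^N` (given `H¹(N, A) = 0`). -/
theorem cls_mk_eq_zero_iff (hN1 : Limits.IsZero (groupCohomology (Rep.res N.subtype A) 1)) :
    cls (QuotientGroup.mk' N) hφ A a ha = 0 ↔
      ∃ z : (A.quotientToInvariants N).V,
        ((gammaInv A N a ha : (A.quotientToInvariants N).ρ.invariants) :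
          (A.quotientToInvariants N).V) = nrmLin (A.quotientToInvariants N) φ n z := by
  refine ⟨fun h => ?_, cls_mk_eq_zero_of_norm A N hφ a ha⟩
  rw [cls_mk_eq_infl_uClass] at h
  have hinj := (Fermat.Agent.GC.Global.DevissageFinal.infRes2 (k := k) A N hN1).1
  have h0 : uClass A N hφ a ha = 0 := hinj (by rw [h, map_zero])
  unfold uClass at h0
  exact (H2π_stdCocycles₂_eq_zero_iff' hφ _).1 h0

end Mk

section GenQuot

variable {Γ Q : Type u} [Group Γ] [Group Q] {φ : Q} {n : ℕ} (hφ : IsGen φ n) (π : Γ →* Q)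

include hφ in
lemma exists_pos_pow_mem_range : ∃ d, 0 < d ∧ φ ^ d ∈ π.range :=
  ⟨n, hφ.pos, by rw [hφ.pow_eq_one]; exact one_mem _⟩

open Classical in
/-- the least positive exponent `d` with `φ ^ d ∈ range π`. -/
def dMin : ℕ := Nat.find (exists_pos_pow_mem_range hφ π)

lemma dMin_pos : 0 < dMin hφ π := by
  classical
  exact (Nat.find_spec (exists_pos_pow_mem_range hφ π)).1

lemma pow_dMin_mem : φ ^ dMin hφ π ∈ π.range := by
  classical
  exact (Nat.find_spec (exists_pos_pow_mem_range hφ π)).2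

lemma dMin_le {r : ℕ} (hr : 0 < r) (h : φ ^ r ∈ π.range) : dMin hφ π ≤ r := by
  classical
  exact Nat.find_min' (exists_pos_pow_mem_range hφ π) ⟨hr, h⟩

lemma dMin_dvd_of_pow_mem {a : ℕ} (h : φ ^ a ∈ π.range) : dMin hφ π ∣ a := by
  by_contra hnd
  have hr : 0 < a % dMin hφ π :=
    Nat.pos_of_ne_zero fun h0 => hnd (Nat.dvd_of_mod_eq_zero h0)
  have hmem : φ ^ (a % dMin hφ π) ∈ π.range := by
    have : φ ^ (a % dMin hφ π) = φ ^ a * ((φ ^ dMin hφ π) ^ (a / dMin hφ π))⁻¹ := by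
      rw [eq_mul_inv_iff_mul_eq, ← pow_mul, ← pow_add, Nat.mod_add_div]
    rw [this]
    exact mul_mem h (inv_mem (pow_mem (pow_dMin_mem hφ π) _))
  exact absurd (dMin_le hφ π hr hmem) (not_le.2 (Nat.mod_lt _ (dMin_pos hφ π)))

lemma dMin_dvd : dMin hφ π ∣ n :=
  dMin_dvd_of_pow_mem hφ π (by rw [hφ.pow_eq_one]; exact one_mem _)

/-- a lift of `φ ^ dMin`. -/
def tauLift : Γ := Classical.choose (pow_dMin_mem hφ π)

lemma map_tauLift : π (tauLift hφ π) = φ ^ dMin hφ π :=
  Classical.choose_spec (pow_dMin_mem hφ π)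

/-- the generator of `Γ ⧸ ker π`. -/
def tauBar : Γ ⧸ π.ker := QuotientGroup.mk (tauLift hφ π)

/-- the order of `Γ ⧸ ker π`. -/
def hQuot : ℕ := n / dMin hφ π

lemma dMin_mul_hQuot : dMin hφ π * hQuot hφ π = n := Nat.mul_div_cancel' (dMin_dvd hφ π)

lemma hQuot_pos : 0 < hQuot hφ π :=
  Nat.div_pos (Nat.le_of_dvd hφ.pos (dMin_dvd hφ π)) (dMin_pos hφ π)

lemma tauBar_pow_eq_one_iff (j : ℕ) : tauBar hφ π ^ j = 1 ↔ hQuot hφ π ∣ j := by
  unfold tauBar
  rw [← QuotientGroup.mk_pow, QuotientGroup.eq_one_iff, MonoidHom.mem_ker, map_pow, map_tauLift,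
    ← pow_mul, ← orderOf_dvd_iff_pow_eq_one, hφ.order]
  have := Nat.mul_dvd_mul_iff_left (b := hQuot hφ π) (c := j) (dMin_pos hφ π)
  rw [dMin_mul_hQuot] at this
  exact this

lemma mk_eq_tauBar_pow (g : Γ) :
    (QuotientGroup.mk g : Γ ⧸ π.ker) = tauBar hφ π ^ (hφ.lg (π g) / dMin hφ π) := by
  have hd : dMin hφ π ∣ hφ.lg (π g) :=
    dMin_dvd_of_pow_mem hφ π (by rw [hφ.pow_lg]; exact ⟨g, rfl⟩)
  unfold tauBar
  rw [← QuotientGroup.mk_pow, QuotientGroup.eq, MonoidHom.mem_ker, map_mul, map_inv, map_pow,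
    map_tauLift, ← pow_mul, Nat.mul_div_cancel' hd, hφ.pow_lg, inv_mul_cancel]

/-- `Γ ⧸ ker π` is cyclic of order `n / dMin`, generated by `tauBar`. -/
theorem genQuot : IsGen (tauBar hφ π) (hQuot hφ π) where
  pos := hQuot_pos hφ π
  order := by
    refine Nat.dvd_antisymm ?_ ?_
    · exact orderOf_dvd_of_pow_eq_one ((tauBar_pow_eq_one_iff hφ π _).2 dvd_rfl)
    · exact (tauBar_pow_eq_one_iff hφ π _).1 (pow_orderOf_eq_one _)
  gen := by
    intro x
    induction x using QuotientGroup.induction_on with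
    | H g =>
      rw [mk_eq_tauBar_pow hφ π g]
      exact Subgroup.pow_mem _ (Subgroup.mem_zpowers _) _

/-- compatibility of the two discrete logarithms. -/
lemma lg_eq_dMin_mul (g : Γ) :
    hφ.lg (π g) = dMin hφ π * (genQuot hφ π).lg (QuotientGroup.mk g) := by
  set l := (genQuot hφ π).lg (QuotientGroup.mk g) with hl
  have hlt : l < hQuot hφ π := (genQuot hφ π).lg_lt _
  have h1 : tauBar hφ π ^ l = QuotientGroup.mk g := (genQuot hφ π).pow_lg _
  have h2 : π g = φ ^ (dMin hφ π * l) := by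
    unfold tauBar at h1
    rw [← QuotientGroup.mk_pow, QuotientGroup.eq, MonoidHom.mem_ker, map_mul, map_inv, map_pow,
      map_tauLift, ← pow_mul, inv_mul_eq_one] at h1
    exact h1.symm
  rw [hφ.lg_eq_of_pow_eq h2.symm]
  refine Nat.mod_eq_of_lt ?_
  calc dMin hφ π * l < dMin hφ π * hQuot hφ π := Nat.mul_lt_mul_of_pos_left hlt (dMin_pos hφ π)
    _ = n := dMin_mul_hQuot hφ π

/-- the class for `π` is the class for `Γ → Γ ⧸ ker π` with the generator `tauBar`. -/
theorem cls_eq_cls_ker (B : Rep.{u} k Γ) (b : B) (hb : ∀ g, B.ρ g b = b) :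
    cls π hφ B b hb = cls (QuotientGroup.mk' π.ker) (genQuot hφ π) B b hb := by
  rw [cls_eq_H2π, cls_eq_H2π]
  congr 1
  apply Subtype.ext
  funext p
  obtain ⟨g, g'⟩ := p
  rw [clsCocycle_apply, clsCocycle_apply]
  congr 1
  rw [lg_eq_dMin_mul hφ π g, lg_eq_dMin_mul hφ π g', ← Nat.mul_add]
  have := Nat.mul_div_mul_left ((genQuot hφ π).lg (QuotientGroup.mk g) +
    (genQuot hφ π).lg (QuotientGroup.mk g')) (hQuot hφ π) (dMin_pos hφ π)
  rw [dMin_mul_hQuot] at this
  exact this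

/-- **Vanishing ⟹ norm**, general `π`: if `cls π hφ B b = 0` and `H¹(ker π, B) = 0`, then `b` is
a norm from `B^{ker π}` for the cyclic group `Γ ⧸ ker π`. -/
theorem exists_norm_of_cls_eq_zero (B : Rep.{u} k Γ) (b : B) (hb : ∀ g, B.ρ g b = b)
    (hW1 : Limits.IsZero (groupCohomology (Rep.res π.ker.subtype B) 1))
    (h0 : cls π hφ B b hb = 0) :
    ∃ z : (B.quotientToInvariants π.ker).V,
      ((gammaInv B π.ker b hb : (B.quotientToInvariants π.ker).ρ.invariants) :
        (B.quotientToInvariants π.ker).V) =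
        nrmLin (B.quotientToInvariants π.ker) (tauBar hφ π) (hQuot hφ π) z := by
  rw [cls_eq_cls_ker] at h0
  exact (cls_mk_eq_zero_iff B π.ker (genQuot hφ π) b hb hW1).1 h0

end GenQuot

end Fermat.Agent.GC.Local.NormLim
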