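/-
GATE-C / C3 (LOCAL) — NORM LIMITATION, part 3 (helper67): the abstract norm-limitation theorem.

`G` a group, `A : Rep k G`, `N ⊲ G` with `G ⧸ N` cyclic (generator `φ` of order `n`), `V ≤ G` of
finite index such that `cor : H²(V, A) → H²(G, A)` is INJECTIVE (true for class modules), and
`H¹(V ∩ N, A) = 0`.  Then for `b ∈ A^V`:

  `N_{G/V} b ∈ N_{G/N}(A^N)  ⟹  b ∈ N_{V/(V ∩ N)}(A^{V ∩ N})`.

(`cls (mk' N) A (N_{G/V} b) = cor (cls π_V (Res_V A) b)` by `cor_cls`; the left side vanishes iff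
`N_{G/V} b` is a norm, the right-hand argument vanishes iff `b` is a norm, by `Criterion.lean`.)

Also the elementwise forms of the norm conditions (`nrmLin` on `A^N` ↔ coset sums in `A`).
-/
import Mathlib
import Fermat.Agent.GC.Local.NormLim.Criterion
import Fermat.Agent.GC.Local.InvLowerField

set_option autoImplicit false

open CategoryTheory groupCohomology Rep
open Fermat.Agent.GC.Tate Fermat.Agent.GC.Local.CycH2 Fermat.Agent.GC.Local.InvLower

noncomputable section

namespace Fermat.Agent.GC.Local.NormLim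

universe u

variable {k : Type u} [CommRing k]

section Abstract

variable {G : Type u} [Group G] (A : Rep.{u} k G) (N : Subgroup G) [N.Normal]
  {φ : G ⧸ N} {n : ℕ} (hφ : IsGen φ n) (V : Subgroup G) [V.FiniteIndex]

/-- the composite `V → G → G ⧸ N`; its kernel is `V ∩ N` (as a subgroup of `V`). -/
abbrev piV : V →* G ⧸ N := (QuotientGroup.mk' N).comp V.subtype

omit [V.FiniteIndex] in
lemma mem_ker_piV (v : V) : v ∈ (piV N V).ker ↔ (v : G) ∈ N := by
  rw [MonoidHom.mem_ker]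
  exact QuotientGroup.eq_one_iff _

/-- **Abstract norm limitation** (`nrmLin` form). -/
theorem norm_limitation_abstract
    (hcor : Function.Injective (cor V A 2))
    (b : A) (hb : ∀ v : V, A.ρ (v : G) b = b)
    (hW1 : Limits.IsZero
      (groupCohomology (Rep.res (piV N V).ker.subtype (Rep.res V.subtype A)) 1))
    (hnorm : ∃ z : (A.quotientToInvariants N).V,
      ((gammaInv A N (cosetNorm V A b) (cosetNorm_inv V A b hb) :
          (A.quotientToInvariants N).ρ.invariants) : (A.quotientToInvariants N).V) =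
        nrmLin (A.quotientToInvariants N) φ n z) :
    ∃ z : ((Rep.res V.subtype A).quotientToInvariants (piV N V).ker).V,
      ((gammaInv (Rep.res V.subtype A) (piV N V).ker b hb :
          ((Rep.res V.subtype A).quotientToInvariants (piV N V).ker).ρ.invariants) :
          ((Rep.res V.subtype A).quotientToInvariants (piV N V).ker).V) =
        nrmLin ((Rep.res V.subtype A).quotientToInvariants (piV N V).ker)
          (tauBar hφ (piV N V)) (hQuot hφ (piV N V)) z := by
  have h1 := cls_mk_eq_zero_of_norm A N hφ (cosetNorm V A b) (cosetNorm_inv V A b hb) hnorm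
  have h2 := cor_cls (QuotientGroup.mk' N) hφ V A b hb
  rw [h1] at h2
  have h3 : cls (piV N V) hφ (Rep.res V.subtype A) b hb = 0 := by
    apply hcor
    rw [h2, map_zero]
  exact exists_norm_of_cls_eq_zero hφ (piV N V) (Rep.res V.subtype A) b hb hW1 h3

end Abstract

section Elementwise

variable {Γ : Type u} [Group Γ] (B : Rep.{u} k Γ) (M : Subgroup Γ) [M.Normal]

/-- the cyclic norm of `Γ ⧸ M` on `B^M`, as a sum over coset representatives in `B`. -/
lemma coe_nrmLin_quot [Fintype (Γ ⧸ M)] {σ : Γ ⧸ M} {m : ℕ} (hσ : IsGen σ m)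
    (z : (B.quotientToInvariants M).V) :
    ((nrmLin (B.quotientToInvariants M) σ m z : (B.quotientToInvariants M).V) : B.V) =
      ∑ c : Γ ⧸ M, B.ρ c.out (z : B.V) := by
  rw [Fermat.Agent.GC.Local.InvLowerField.nrmLin_eq_sum hσ z]
  change (((∑ g : Γ ⧸ M, (B.quotientToInvariants M).ρ g z :
    (Representation.invariants (B.ρ.comp M.subtype)))) : B.V) = _
  rw [Submodule.coe_sum]
  refine Finset.sum_congr rfl fun c _ => ?_
  conv_lhs => rw [← QuotientGroup.out_eq' c]
  rfl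

/-- elements ⟹ `nrmLin` form of "`a` is a norm from `B^M`". -/
lemma exists_nrmLin_of_sum [Fintype (Γ ⧸ M)] {σ : Γ ⧸ M} {m : ℕ} (hσ : IsGen σ m)
    (a : B) (ha : ∀ g, B.ρ g a = a) (z₀ : B) (hz₀ : ∀ x ∈ M, B.ρ x z₀ = z₀)
    (h : a = ∑ c : Γ ⧸ M, B.ρ c.out z₀) :
    ∃ z : (B.quotientToInvariants M).V,
      ((gammaInv B M a ha : (B.quotientToInvariants M).ρ.invariants) :
        (B.quotientToInvariants M).V) = nrmLin (B.quotientToInvariants M) σ m z := by
  refine ⟨⟨z₀, fun x => hz₀ x.1 x.2⟩, Subtype.ext ?_⟩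
  rw [coe_nrmLin_quot B M hσ]
  exact h

/-- `nrmLin` form ⟹ elements. -/
lemma exists_sum_of_nrmLin [Fintype (Γ ⧸ M)] {σ : Γ ⧸ M} {m : ℕ} (hσ : IsGen σ m)
    (a : B) (ha : ∀ g, B.ρ g a = a)
    (h : ∃ z : (B.quotientToInvariants M).V,
      ((gammaInv B M a ha : (B.quotientToInvariants M).ρ.invariants) :
        (B.quotientToInvariants M).V) = nrmLin (B.quotientToInvariants M) σ m z) :
    ∃ z₀ : B, (∀ x ∈ M, B.ρ x z₀ = z₀) ∧ a = ∑ c : Γ ⧸ M, B.ρ c.out z₀ := by
  obtain ⟨z, hz⟩ := h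
  refine ⟨z.1, fun x hx => z.2 ⟨x, hx⟩, ?_⟩
  rw [← coe_nrmLin_quot B M hσ z, ← hz]
  rfl

end Elementwise

section AbstractElem

variable {G : Type u} [Group G] (A : Rep.{u} k G) (N : Subgroup G) [N.Normal]
  (V : Subgroup G) [V.FiniteIndex]

attribute [local instance] Subgroup.fintypeQuotientOfFiniteIndex in
/-- `cosetNorm` with an arbitrary `Fintype` instance. -/
lemma cosetNorm_eq_sum [Fintype (G ⧸ V)] (b : A) :
    cosetNorm V A b = ∑ c : G ⧸ V, A.ρ c.out b := by
  unfold cosetNorm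
  exact Finset.sum_congr (Finset.ext fun _ => by simp) (fun _ _ => rfl)

/-- **Abstract norm limitation**, elementwise form: `G ⧸ N` finite cyclic, `cor_V` injective on
`H²`, `W = V ∩ N` (as a subgroup of `V`) with `H¹(W, A) = 0`, `b ∈ A^V`, `z₀ ∈ A^N` with
`N_{G/V} b = N_{G/N} z₀`.  Then `b = N_{V/W} z₁` for some `z₁ ∈ A^W`. -/
theorem norm_limitation_elem [Finite (G ⧸ N)] [IsCyclic (G ⧸ N)]
    [Fintype (G ⧸ V)] [Fintype (G ⧸ N)]
    (W : Subgroup V) (hW : ∀ v : V, v ∈ W ↔ (v : G) ∈ N) [Fintype (V ⧸ W)]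
    (hcor : Function.Injective (cor V A 2))
    (b : A) (hb : ∀ v : V, A.ρ (v : G) b = b)
    (hW1 : Limits.IsZero (groupCohomology (Rep.res W.subtype (Rep.res V.subtype A)) 1))
    (z₀ : A) (hz₀ : ∀ x ∈ N, A.ρ x z₀ = z₀)
    (h : ∑ c : G ⧸ V, A.ρ c.out b = ∑ c : G ⧸ N, A.ρ c.out z₀) :
    ∃ z₁ : A, (∀ v : V, v ∈ W → A.ρ (v : G) z₁ = z₁) ∧
      b = ∑ c : V ⧸ W, A.ρ ((c.out : V) : G) z₁ := by
  obtain rfl : W = (piV N V).ker := by
    ext v
    rw [hW, mem_ker_piV]
  obtain ⟨φ, hφ⟩ := Fermat.Agent.GC.Local.InvLowerField.exists_isGen (Q := G ⧸ N)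
  have h1 := norm_limitation_abstract A N hφ V hcor b hb hW1
    (exists_nrmLin_of_sum A N hφ _ (cosetNorm_inv V A b hb) z₀ hz₀
      ((cosetNorm_eq_sum A V b).trans h))
  obtain ⟨z₁, hz₁, hsum⟩ := exists_sum_of_nrmLin (Rep.res V.subtype A) (piV N V).ker
    (genQuot hφ (piV N V)) b hb h1
  exact ⟨z₁, hz₁, hsum⟩

end AbstractElem

end Fermat.Agent.GC.Local.NormLim
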