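/-
GATE-C / C3 (LOCAL) — NORM LIMITATION, part 4 (helper67): corestriction is injective on `H²` of a
class module.

`G` finite, `C : Rep ℤ G`, `u ∈ H²(G, C)` of order `|G|`, `|H²(H, C)| = |H|`.  Then
`cor : H²(H, C) → H²(G, C)` is injective (`H²(H, C)` is generated by `res u`,
`cor (res u) = [G:H] u`), and `cor (res u)` has order `|H|`.
-/
import Mathlib
import Fermat.Agent.GC.Tate.CorRes
import Fermat.Agent.GC.Local.Herbrand.ClassMod

set_option autoImplicit false

open CategoryTheory groupCohomology Rep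
open Fermat.Agent.GC.Tate Fermat.Agent.GC.Local.Herbrand

noncomputable section

namespace Fermat.Agent.GC.Local.NormLim

section Generic

variable {G : Type} [Group G] [Finite G]

/-- **`cor` is injective on `H²`** of a class module. -/
theorem cor_injective_of_card (C : Rep ℤ G) (u : H2 C) (hu : addOrderOf u = Nat.card G)
    (H : Subgroup G) (hcard : Nat.card (H2 (resSub C H)) = Nat.card H) :
    Function.Injective (cor H C 2) := by
  have hfin : Finite (H2 (resSub C H)) :=
    Nat.finite_of_card_ne_zero (by rw [hcard]; exact Nat.card_pos.ne')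
  rw [injective_iff_map_eq_zero]
  intro x hx
  obtain ⟨m, rfl⟩ := exists_zsmul_res_of_card C u hu H hcard x
  rw [map_zsmul] at hx
  have h1 : cor H C 2 ((resH2 C H).hom u) = H.index • u := cor_res_apply H C 2 u
  rw [h1] at hx
  -- `m • [G:H] • u = 0` ⟹ `|G| ∣ m [G:H]` ⟹ `|H| ∣ m`
  have h2 : ((m * (H.index : ℤ)) : ℤ) • u = 0 := by
    rw [mul_smul, natCast_zsmul]
    exact hx
  have h3 : ((Nat.card G : ℕ) : ℤ) ∣ m * (H.index : ℤ) := by
    rw [← hu]
    exact (addOrderOf_dvd_iff_zsmul_eq_zero).2 h2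
  have h4 : ((Nat.card H : ℕ) : ℤ) ∣ m := by
    have hidx : (Nat.card G : ℤ) = (Nat.card H : ℤ) * (H.index : ℤ) := by
      rw [← Nat.cast_mul, Subgroup.card_mul_index]
    rw [hidx] at h3
    have hne : (H.index : ℤ) ≠ 0 := by
      exact_mod_cast Subgroup.index_ne_zero_of_finite
    exact (mul_dvd_mul_iff_right hne).1 h3
  have h5 : addOrderOf ((resH2 C H).hom u) = Nat.card H := addOrderOf_resH2 C u hu H hcard
  rw [← h5] at h4
  exact (addOrderOf_dvd_iff_zsmul_eq_zero).1 h4

end Generic

end Fermat.Agent.GC.Local.NormLim
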