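/-
GATE-C / C3 (LOCAL) — NORM LIMITATION (N2), part 5 (helper67): the LOCAL theorem, UNCONDITIONAL.

`L/K` finite Galois extension of `q`-adic fields, `G = Gal(L/K)`, `A = Lˣ`
(`Rep.ofAlgebraAutOnUnits K L`), `V ≤ G` any subgroup (`E = L^V`, NOT nec. Galois over `K`),
`N ⊲ G` with `G ⧸ N` cyclic (`M = L^N` cyclic over `K`).  Then

* `local_cor_injective` : `cor : H²(V, Lˣ) → H²(G, Lˣ)` is injective  (finite-level (COR-INJ));
* `local_norm_limitation` : for `b ∈ Eˣ = (Lˣ)^V`: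
    `N_{E/K} b ∈ N_{M/K}(Mˣ)  ⟹  b ∈ N_{EM/E}((EM)ˣ)`,
  all norms in coset form (`N_{E/K} b = ∑_{c ∈ G/V} c.out • b` in `Additive Lˣ`), the shape of
  helper55's `WRec/RelNorm.lean`.
-/
import Mathlib
import Fermat.Agent.GC.Local.NormLim.Abstract
import Fermat.Agent.GC.Local.NormLim.CorInj
import Fermat.Agent.GC.Local.Unram.LocalCFT

set_option autoImplicit false

open scoped Padic
open CategoryTheory groupCohomology Rep
open Fermat.Agent.GC.Tate Fermat.Agent.GC.Local.CycH2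

noncomputable section

namespace Fermat.Agent.GC.Local.NormLim

section Local

variable (q : ℕ) [Fact q.Prime] (K L : Type) [Field K] [Field L]
  [Algebra ℚ_[q] K] [Algebra ℚ_[q] L] [Algebra K L] [IsScalarTower ℚ_[q] K L]
  [FiniteDimensional ℚ_[q] L] [FiniteDimensional K L] [IsGalois K L]

include q in
/-- **local `cor` is injective on `H²`** (equivalently `inv_K ∘ cor = inv_E`). -/
theorem local_cor_injective (V : Subgroup (L ≃ₐ[K] L)) :
    Function.Injective (cor V (Rep.ofAlgebraAutOnUnits K L) 2) := by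
  obtain ⟨u, hu⟩ := Fermat.Agent.GC.Local.Unram.lowerInput q K L
  exact cor_injective_of_card _ u (by rw [hu, IsGalois.card_aut_eq_finrank]) V
    (Fermat.Agent.GC.Local.Unram.local_card_H2_res q K L V)

/-- Hilbert 90 for a subgroup of a subgroup. -/
theorem local_isZero_H1_res_res (V : Subgroup (L ≃ₐ[K] L)) (W : Subgroup V) :
    Limits.IsZero (groupCohomology
      (Rep.res W.subtype (Rep.res V.subtype (Rep.ofAlgebraAutOnUnits K L))) 1) :=
  Limits.IsZero.of_iso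
    (Fermat.Agent.GC.Local.InvLowerField.isZero_H1_res K L (W.map V.subtype))
    (Fermat.Agent.GC.Global.DevissageSub.resResIso (Rep.ofAlgebraAutOnUnits K L) V W 1)

include q in
/-- **Local norm limitation (N2)**, coset form in `Additive Lˣ`. -/
theorem local_norm_limitation (V N : Subgroup (L ≃ₐ[K] L)) [N.Normal]
    [IsCyclic ((L ≃ₐ[K] L) ⧸ N)] [Fintype ((L ≃ₐ[K] L) ⧸ V)] [Fintype ((L ≃ₐ[K] L) ⧸ N)]
    (W : Subgroup V) (hW : ∀ v : V, v ∈ W ↔ (v : L ≃ₐ[K] L) ∈ N) [Fintype (V ⧸ W)]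
    (b : Rep.ofAlgebraAutOnUnits K L)
    (hb : ∀ v : V, (Rep.ofAlgebraAutOnUnits K L).ρ (v : L ≃ₐ[K] L) b = b)
    (z₀ : Rep.ofAlgebraAutOnUnits K L)
    (hz₀ : ∀ x ∈ N, (Rep.ofAlgebraAutOnUnits K L).ρ x z₀ = z₀)
    (h : ∑ c : (L ≃ₐ[K] L) ⧸ V, (Rep.ofAlgebraAutOnUnits K L).ρ c.out b =
      ∑ c : (L ≃ₐ[K] L) ⧸ N, (Rep.ofAlgebraAutOnUnits K L).ρ c.out z₀) :
    ∃ z₁ : Rep.ofAlgebraAutOnUnits K L,
      (∀ v : V, v ∈ W → (Rep.ofAlgebraAutOnUnits K L).ρ (v : L ≃ₐ[K] L) z₁ = z₁) ∧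
      b = ∑ c : V ⧸ W, (Rep.ofAlgebraAutOnUnits K L).ρ ((c.out : V) : L ≃ₐ[K] L) z₁ :=
  norm_limitation_elem (Rep.ofAlgebraAutOnUnits K L) N V W hW (local_cor_injective q K L V) b hb
    (local_isZero_H1_res_res K L V W) z₀ hz₀ h

end Local

end Fermat.Agent.GC.Local.NormLim
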