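/-
GATE-C / C3 (LOCAL) — NORM LIMITATION (N2) + NORM INDEX (N1) in the vocabulary of helper55's
`WRec/RelNorm.lean` (`IsInv`, `relNorm`, `relNormSub`), helper67.

`L/K` finite Galois extension of `q`-adic fields, `ρ` the action of `G = Gal(L/K)` on
`Additive Lˣ`, `V ≤ G` any subgroup, `N ⊲ G` with `G ⧸ N` cyclic.  For `b ∈ (Lˣ)^V`:

  `N_{G/V} b ∈ N_{G/N}((Lˣ)^N)  ↔  b ∈ N_{V/(V ⊓ N)}((Lˣ)^{V ⊓ N})`      (`local_relNorm_mem_iff`).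
-/
import Mathlib
import Fermat.Agent.GC.Local.NormLim.Local
import Fermat.Agent.GC.Global.WRec.RelNorm

set_option autoImplicit false

open scoped Padic
open CategoryTheory groupCohomology Rep
open Fermat.Agent.GC.Global.WRec

noncomputable section

namespace Fermat.Agent.GC.Local.NormLim

section Local

variable (q : ℕ) [Fact q.Prime] (K L : Type) [Field K] [Field L]
  [Algebra ℚ_[q] K] [Algebra ℚ_[q] L] [Algebra K L] [IsScalarTower ℚ_[q] K L]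
  [FiniteDimensional ℚ_[q] L] [FiniteDimensional K L] [IsGalois K L]

include q in
/-- **(N2)**, `RelNorm` vocabulary, the hard direction. -/
theorem local_relNorm_limitation (V N : Subgroup (L ≃ₐ[K] L)) [N.Normal]
    [IsCyclic ((L ≃ₐ[K] L) ⧸ N)]
    (b : Rep.ofAlgebraAutOnUnits K L) (hb : IsInv (Rep.ofAlgebraAutOnUnits K L).ρ V b)
    (z₀ : Rep.ofAlgebraAutOnUnits K L) (hz₀ : IsInv (Rep.ofAlgebraAutOnUnits K L).ρ N z₀)
    (h : relNorm (Rep.ofAlgebraAutOnUnits K L).ρ V b =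
      relNorm (Rep.ofAlgebraAutOnUnits K L).ρ N z₀) :
    ∃ z₁ : Rep.ofAlgebraAutOnUnits K L,
      IsInv (Rep.ofAlgebraAutOnUnits K L).ρ (V ⊓ N) z₁ ∧
      b = relNormSub (Rep.ofAlgebraAutOnUnits K L).ρ V (V ⊓ N) z₁ := by
  let _ : Fintype ((L ≃ₐ[K] L) ⧸ V) := Fintype.ofFinite _
  let _ : Fintype ((L ≃ₐ[K] L) ⧸ N) := Fintype.ofFinite _
  let _ : Fintype (V ⧸ (V ⊓ N).subgroupOf V) := Fintype.ofFinite _
  rw [relNorm_apply, relNorm_apply] at h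
  have hW : ∀ v : V, v ∈ (V ⊓ N).subgroupOf V ↔ (v : L ≃ₐ[K] L) ∈ N := by
    intro v
    rw [Subgroup.mem_subgroupOf, Subgroup.mem_inf]
    exact ⟨fun h => h.2, fun h => ⟨v.2, h⟩⟩
  obtain ⟨z₁, hz₁, hsum⟩ := local_norm_limitation q K L V N ((V ⊓ N).subgroupOf V) hW b
    (fun v => hb v v.2) z₀ hz₀ h
  refine ⟨z₁, fun g hg => ?_, ?_⟩
  · exact hz₁ ⟨g, hg.1⟩ ((hW ⟨g, hg.1⟩).2 hg.2)
  · rw [relNormSub_apply]
    exact hsum

include q in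
/-- **(N2)**, `RelNorm` vocabulary: for `b ∈ (Lˣ)^V`,
`N_{G/V} b ∈ N_{G/N}((Lˣ)^N) ↔ b ∈ N_{V/(V ⊓ N)}((Lˣ)^{V ⊓ N})`. -/
theorem local_relNorm_mem_iff (V N : Subgroup (L ≃ₐ[K] L)) [N.Normal]
    [IsCyclic ((L ≃ₐ[K] L) ⧸ N)]
    (b : Rep.ofAlgebraAutOnUnits K L) (hb : IsInv (Rep.ofAlgebraAutOnUnits K L).ρ V b) :
    (∃ z₀ : Rep.ofAlgebraAutOnUnits K L, IsInv (Rep.ofAlgebraAutOnUnits K L).ρ N z₀ ∧
        relNorm (Rep.ofAlgebraAutOnUnits K L).ρ V b =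
          relNorm (Rep.ofAlgebraAutOnUnits K L).ρ N z₀) ↔
      ∃ z₁ : Rep.ofAlgebraAutOnUnits K L,
        IsInv (Rep.ofAlgebraAutOnUnits K L).ρ (V ⊓ N) z₁ ∧
        b = relNormSub (Rep.ofAlgebraAutOnUnits K L).ρ V (V ⊓ N) z₁ := by
  constructor
  · rintro ⟨z₀, hz₀, h⟩
    exact local_relNorm_limitation q K L V N b hb z₀ hz₀ h
  · rintro ⟨z₁, hz₁, rfl⟩
    let _ : Fintype ((L ≃ₐ[K] L) ⧸ V) := Fintype.ofFinite _
    let _ : Fintype ((L ≃ₐ[K] L) ⧸ N) := Fintype.ofFinite _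
    let _ : Fintype (V ⧸ (V ⊓ N).subgroupOf V) := Fintype.ofFinite _
    let _ : Fintype ((L ≃ₐ[K] L) ⧸ (V ⊓ N)) := Fintype.ofFinite _
    let _ : Fintype (N ⧸ (V ⊓ N).subgroupOf N) := Fintype.ofFinite _
    refine ⟨relNormSub (Rep.ofAlgebraAutOnUnits K L).ρ N (V ⊓ N) z₁, isInv_relNormSub hz₁, ?_⟩
    rw [relNorm_relNormSub inf_le_left hz₁, relNorm_relNormSub inf_le_right hz₁]

end Local

end Fermat.Agent.GC.Local.NormLim
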