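/-
GATE-C / C3 (LOCAL) — NORM INDEX (N1) in `Rep` / `RelNorm` form, helper67.

Generic: for `V' ≤ V ≤ G` with `V' ⊲ V` and `V / V'` cyclic, the index of the norm group
`N_{V/V'}(A^{V'})` in `A^V` is `|H²(V / V', A^{V'})|` (periodicity, helper3's `CycH2.H2Equiv`).
Local: for `A = Lˣ`, `L/K` finite Galois of `q`-adic fields, this is `[V : V']`
(`local_relIndex_normAdd`), hence together with (N2) (`local_relNorm_mem_iff`):
the subgroup `{b ∈ (Lˣ)^V | N_{G/V} b ∈ N_{G/N}((Lˣ)^N)}` has index `[V : V ⊓ N]` in `(Lˣ)^V`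
(`local_relIndex_normPre`): "the image of `N_{E/K}` in `Kˣ / N Mˣ ≅ Gal(M/K)` is the full
decomposition group `Gal(M/E ∩ M)`" in counting form.
-/
import Mathlib
import Fermat.Agent.GC.Local.NormLim.RelNormForm
import Fermat.Agent.GC.Local.Herbrand.LocalLayer

set_option autoImplicit false

open scoped Padic
open CategoryTheory groupCohomology Rep
open Fermat.Agent.GC.Global.WRec Fermat.Agent.GC.Local.CycH2 Fermat.Agent.GC.Local.InvLower

noncomputable section

namespace Fermat.Agent.GC.Local.NormLim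

universe u

section Defs

variable {k G M : Type*} [CommRing k] [Group G] [AddCommGroup M] [Module k M]
  (ρ : Representation k G M)

/-- the additive group of `H`-invariants. -/
def invAdd (H : Subgroup G) : AddSubgroup M where
  carrier := {y | IsInv ρ H y}
  zero_mem' := fun g _ => map_zero (ρ g)
  add_mem' := fun hy hz => IsInv.add hy hz
  neg_mem' := fun {y} hy g hg => by rw [map_neg, hy g hg]

lemma mem_invAdd {H : Subgroup G} {y : M} : y ∈ invAdd ρ H ↔ IsInv ρ H y := Iff.rfl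

/-- the norm group `N_{H/H'}(M^{H'})`. -/
def normAdd (H H' : Subgroup G) [Finite (H ⧸ H'.subgroupOf H)] : AddSubgroup M :=
  (invAdd ρ H').map (relNormSub ρ H H').toAddMonoidHom

lemma mem_normAdd {H H' : Subgroup G} [Finite (H ⧸ H'.subgroupOf H)] {y : M} :
    y ∈ normAdd ρ H H' ↔ ∃ z, IsInv ρ H' z ∧ relNormSub ρ H H' z = y := by
  unfold normAdd
  rw [AddSubgroup.mem_map]
  exact ⟨fun ⟨z, hz, h⟩ => ⟨z, hz, h⟩, fun ⟨z, hz, h⟩ => ⟨z, hz, h⟩⟩

lemma normAdd_le_invAdd {H H' : Subgroup G} [Finite (H ⧸ H'.subgroupOf H)] :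
    normAdd ρ H H' ≤ invAdd ρ H := by
  intro y hy
  obtain ⟨z, hz, rfl⟩ := (mem_normAdd ρ).1 hy
  let _ : Fintype (H ⧸ H'.subgroupOf H) := Fintype.ofFinite _
  exact isInv_relNormSub hz

end Defs

section Generic

variable {k : Type u} [CommRing k] {G : Type u} [Group G] (A : Rep.{u} k G)
  (V V' : Subgroup G) [(V'.subgroupOf V).Normal]

/-- `A^V → ((Res_V A)^{V'})^{V/V'}`. -/
def invToQuot : invAdd A.ρ V →+
    ((Rep.res V.subtype A).quotientToInvariants (V'.subgroupOf V)).ρ.invariants where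
  toFun y := gammaInv (Rep.res V.subtype A) (V'.subgroupOf V) y.1 (fun v => y.2 v v.2)
  map_zero' := rfl
  map_add' _ _ := rfl

lemma invToQuot_surjective : Function.Surjective (invToQuot A V V') := by
  intro x
  refine ⟨⟨x.1.1, fun g hg => ?_⟩, Subtype.ext (Subtype.ext rfl)⟩
  have := x.2 (QuotientGroup.mk ⟨g, hg⟩)
  exact congrArg Subtype.val this

/-- **Norm index = `|H²|`** for a cyclic layer `V / V'` (periodicity). -/
theorem relIndex_normAdd_eq_card_H2 (hle : V' ≤ V) [Finite (V ⧸ V'.subgroupOf V)]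
    {σ : V ⧸ V'.subgroupOf V} {m : ℕ} (hσ : IsGen σ m) :
    (normAdd A.ρ V V').relIndex (invAdd A.ρ V) =
      Nat.card (H2 ((Rep.res V.subtype A).quotientToInvariants (V'.subgroupOf V))) := by
  let _ : Fintype (V ⧸ V'.subgroupOf V) := Fintype.ofFinite _
  set B := (Rep.res V.subtype A).quotientToInvariants (V'.subgroupOf V) with hB
  let f : invAdd A.ρ V →+ (B.ρ.invariants ⧸ normSub B σ m) :=
    ((normSub B σ m).mkQ.toAddMonoidHom).comp (invToQuot A V V')
  have hf : Function.Surjective f :=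
    (Submodule.mkQ_surjective _).comp (invToQuot_surjective A V V')
  have hker : (normAdd A.ρ V V').addSubgroupOf (invAdd A.ρ V) = f.ker := by
    ext y
    rw [AddSubgroup.mem_addSubgroupOf, AddMonoidHom.mem_ker]
    change _ ↔ (normSub B σ m).mkQ (invToQuot A V V' y) = 0
    rw [Submodule.mkQ_apply, Submodule.Quotient.mk_eq_zero, mem_normSub_iff, mem_normAdd]
    constructor
    · rintro ⟨z, hz, hzy⟩
      refine exists_nrmLin_of_sum (Rep.res V.subtype A) (V'.subgroupOf V) hσ y.1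
        (fun v => y.2 v v.2) z (fun x hx => hz x.1 (Subgroup.mem_subgroupOf.1 hx)) ?_
      rw [← hzy, relNormSub_apply]
      rfl
    · intro h
      obtain ⟨z₀, hz₀, hsum⟩ := exists_sum_of_nrmLin (Rep.res V.subtype A) (V'.subgroupOf V) hσ
        y.1 (fun v => y.2 v v.2) h
      refine ⟨z₀, fun g hg => hz₀ ⟨g, hle hg⟩ (Subgroup.mem_subgroupOf.2 hg), ?_⟩
      rw [relNormSub_apply, hsum]
      rfl
  unfold AddSubgroup.relIndex
  rw [hker, AddSubgroup.index_ker, Nat.card_congr (Equiv.ofBijective _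
    ⟨Subtype.val_injective, fun x => ⟨⟨x, AddMonoidHom.mem_range.2 (hf x)⟩, rfl⟩⟩)]
  exact (Nat.card_congr (H2Equiv hσ).toEquiv).symm

end Generic

section Local

variable (q : ℕ) [Fact q.Prime] (K L : Type) [Field K] [Field L]
  [Algebra ℚ_[q] K] [Algebra ℚ_[q] L] [Algebra K L] [IsScalarTower ℚ_[q] K L]
  [FiniteDimensional ℚ_[q] L] [FiniteDimensional K L] [IsGalois K L]

include q in
/-- **(N1), `Rep` form**: for `V' ≤ V ≤ Gal(L/K)`, `V' ⊲ V`, `V / V'` cyclic, the norm group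
`N_{V/V'}((Lˣ)^{V'})` has index `[V : V']` in `(Lˣ)^V`. -/
theorem local_relIndex_normAdd (V V' : Subgroup (L ≃ₐ[K] L)) (hle : V' ≤ V)
    [(V'.subgroupOf V).Normal] [IsCyclic (V ⧸ V'.subgroupOf V)] :
    (normAdd (Rep.ofAlgebraAutOnUnits K L).ρ V V').relIndex
        (invAdd (Rep.ofAlgebraAutOnUnits K L).ρ V) = (V'.subgroupOf V).index := by
  obtain ⟨σ, hσ⟩ := Fermat.Agent.GC.Local.InvLowerField.exists_isGen (Q := V ⧸ V'.subgroupOf V)
  rw [relIndex_normAdd_eq_card_H2 (Rep.ofAlgebraAutOnUnits K L) V V' hle hσ]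
  exact (Fermat.Agent.GC.Local.Herbrand.local_layer_card_of_isCyclic q K L V
    (V'.subgroupOf V)).2.2

/-- the norm group `N_{G/N}((Lˣ)^N)` (coset form over `G ⧸ N`). -/
def normTop {k G M : Type*} [CommRing k] [Group G] [AddCommGroup M] [Module k M]
    (ρ : Representation k G M) (N : Subgroup G) [Finite (G ⧸ N)] : AddSubgroup M :=
  (invAdd ρ N).map (relNorm ρ N).toAddMonoidHom

lemma mem_normTop {k G M : Type*} [CommRing k] [Group G] [AddCommGroup M] [Module k M]
    (ρ : Representation k G M) {N : Subgroup G} [Finite (G ⧸ N)] {y : M} :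
    y ∈ normTop ρ N ↔ ∃ z, IsInv ρ N z ∧ relNorm ρ N z = y := by
  unfold normTop
  rw [AddSubgroup.mem_map]
  exact ⟨fun ⟨z, hz, h⟩ => ⟨z, hz, h⟩, fun ⟨z, hz, h⟩ => ⟨z, hz, h⟩⟩

/-- `V ⊓ N` is normal in `V` with cyclic quotient when `N ⊲ G` has cyclic quotient. -/
lemma normal_inf_subgroupOf {G : Type*} [Group G] (V N : Subgroup G) [N.Normal] :
    ((V ⊓ N).subgroupOf V).Normal := by
  rw [Subgroup.inf_subgroupOf_left]
  infer_instance

lemma isCyclic_quot_inf_subgroupOf {G : Type*} [Group G] (V N : Subgroup G) [N.Normal]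
    [IsCyclic (G ⧸ N)] [((V ⊓ N).subgroupOf V).Normal] :
    IsCyclic (V ⧸ (V ⊓ N).subgroupOf V) := by
  have hker : ((QuotientGroup.mk' N).comp V.subtype).ker = (V ⊓ N).subgroupOf V := by
    ext v
    rw [MonoidHom.mem_ker, Subgroup.mem_subgroupOf, Subgroup.mem_inf]
    change (QuotientGroup.mk (v : G) : G ⧸ N) = 1 ↔ _
    rw [QuotientGroup.eq_one_iff]
    exact ⟨fun h => ⟨v.2, h⟩, fun h => h.2⟩
  let φ : V ⧸ (V ⊓ N).subgroupOf V →* G ⧸ N :=
    QuotientGroup.lift _ ((QuotientGroup.mk' N).comp V.subtype) (by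
      intro v hv
      rw [← hker] at hv
      exact hv)
  have hφ : Function.Injective φ := by
    rw [injective_iff_map_eq_one]
    intro x hx
    induction x using QuotientGroup.induction_on with
    | H v =>
      rw [QuotientGroup.eq_one_iff, ← hker]
      exact hx
  exact isCyclic_of_injective φ hφ

include q in
/-- **(N1) + (N2), counting form**: the subgroup of those `b ∈ (Lˣ)^V` whose norm `N_{G/V} b`
lies in `N_{G/N}((Lˣ)^N)` has index `[V : V ⊓ N]` in `(Lˣ)^V`.  (So the image of `N_{E/K}` in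
`Kˣ / N_{M/K} Mˣ` has `[EM : E]` elements.) -/
theorem local_relIndex_normPre (V N : Subgroup (L ≃ₐ[K] L)) [N.Normal]
    [IsCyclic ((L ≃ₐ[K] L) ⧸ N)] :
    ((normTop (Rep.ofAlgebraAutOnUnits K L).ρ N).comap
        (relNorm (Rep.ofAlgebraAutOnUnits K L).ρ V).toAddMonoidHom).relIndex
        (invAdd (Rep.ofAlgebraAutOnUnits K L).ρ V) = ((V ⊓ N).subgroupOf V).index := by
  have hnorm := normal_inf_subgroupOf V N
  have hcyc := isCyclic_quot_inf_subgroupOf V N
  rw [← local_relIndex_normAdd q K L V (V ⊓ N) inf_le_left,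
    ← AddSubgroup.inf_relIndex_right,
    ← AddSubgroup.inf_relIndex_right (normAdd (Rep.ofAlgebraAutOnUnits K L).ρ V (V ⊓ N))]
  congr 1
  ext b
  rw [AddSubgroup.mem_inf, AddSubgroup.mem_inf, AddSubgroup.mem_comap, mem_normTop, mem_normAdd]
  constructor
  · rintro ⟨⟨z₀, hz₀, h⟩, hb⟩
    obtain ⟨z₁, hz₁, hsum⟩ := (local_relNorm_mem_iff q K L V N b hb).1 ⟨z₀, hz₀, h.symm⟩
    exact ⟨⟨z₁, hz₁, hsum.symm⟩, hb⟩
  · rintro ⟨⟨z₁, hz₁, hsum⟩, hb⟩
    obtain ⟨z₀, hz₀, h⟩ := (local_relNorm_mem_iff q K L V N b hb).2 ⟨z₁, hz₁, hsum.symm⟩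
    exact ⟨⟨z₀, hz₀, h.symm⟩, hb⟩

end Local

end Fermat.Agent.GC.Local.NormLim
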